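import Fermat.Agent.Oldform.DegMap
import Fermat.Agent.Quick.HeckeEigenform
import Mathlib.FieldTheory.IsAlgClosed.Basic
import Mathlib.Analysis.Complex.Polynomial.Basic

/-!
# Stabilisation of an eigenform at a prime not dividing the level
-/

set_option autoImplicit false

open UpperHalfPlane CongruenceSubgroup ModularFormClass

namespace FLTAgent.Oldform

variable {M q : ℕ} [NeZero M]

/-- A normalised eigenform of level `M` gives one of level `M q` with the same eigenvalues away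
from `q`. -/
theorem exists_raise {g : CuspForm (Gamma0 M) 2} (hg : g.IsNormalizedEigenform) (hq : q.Prime)
    (hqM : ¬ q ∣ M) :
    ∃ h : CuspForm (Gamma0 (M * q)) 2, h.IsNormalizedEigenform ∧
      ∀ ℓ : ℕ, ℓ.Prime → ℓ ≠ q → qCoeff h ℓ = qCoeff g ℓ := by
  have : NeZero q := ⟨hq.ne_zero⟩
  set a : ℕ → ℂ := fun n => qCoeff g n with ha
  obtain ⟨β, hβ⟩ : ∃ β : ℂ, β * β - a q * β + q = 0 := by
    obtain ⟨β, hβ⟩ := exists_quadratic_eq_zero (a := (1 : ℂ)) (b := -a q) (c := (q : ℂ)) one_ne_zero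
      (IsAlgClosed.exists_eq_mul_self _)
    exact ⟨β, by linear_combination hβ⟩
  let h : CuspForm (Gamma0 (M * q)) 2 :=
    incl (dvd_mul_right M q) g + (-β / q) • degMap hq.ne_zero dvd_rfl g
  have hb : ∀ n, qCoeff h n = a n - if q ∣ n then β * a (n / q) else 0 := by
    intro n
    rw [FLTAgent.Quick.qCoeff_add', qCoeff_incl, FLTAgent.Quick.qCoeff_smul', qCoeff_degMap]
    split_ifs with hn
    · have : (q : ℂ) ≠ 0 := Nat.cast_ne_zero.mpr hq.ne_zero
      simp only [show (2 : ℤ) - 1 = 1 by norm_num, zpow_one]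
      field_simp
      ring
    · ring
  have hoff : ∀ n, ¬ q ∣ n → qCoeff h n = a n := fun n hn => by rw [hb, if_neg hn, sub_zero]
  refine ⟨h, ⟨?_, ?_, ?_, ?_⟩, fun ℓ hℓ hne => hoff ℓ fun hd =>
    hne ((Nat.prime_dvd_prime_iff_eq hq hℓ).mp hd).symm⟩
  · rw [hoff 1 hq.not_dvd_one]; exact hg.qCoeff_one
  · intro m n hmn
    rw [hb (m * n), hb m, hb n]
    by_cases hm : q ∣ m
    · have hn : ¬ q ∣ n := fun hn => hq.one_lt.ne' (Nat.eq_one_of_dvd_coprimes hmn hm hn)
      rw [if_pos (hm.mul_right n), if_pos hm, if_neg hn, ← Nat.div_mul_right_comm hm,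
        show a (m * n) = a m * a n from hg.qCoeff_mul_of_coprime m n hmn,
        show a (m / q * n) = a (m / q) * a n from hg.qCoeff_mul_of_coprime _ _
          (hmn.coprime_dvd_left (Nat.div_dvd_of_dvd hm))]
      ring
    · by_cases hn : q ∣ n
      · rw [if_pos (hn.mul_left m), if_neg hm, if_pos hn, Nat.mul_div_assoc m hn,
          show a (m * n) = a m * a n from hg.qCoeff_mul_of_coprime m n hmn,
          show a (m * (n / q)) = a m * a (n / q) from hg.qCoeff_mul_of_coprime _ _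
            (hmn.coprime_dvd_right (Nat.div_dvd_of_dvd hn))]
        ring
      · rw [if_neg (fun hmn' => (hq.dvd_mul.mp hmn').elim hm hn), if_neg hm, if_neg hn, sub_zero,
          sub_zero, sub_zero]
        exact hg.qCoeff_mul_of_coprime m n hmn
  · intro p r hp hpMq
    have hpq : p ≠ q := fun e => hpMq (e ▸ dvd_mul_left q M)
    have hnd : ∀ j, ¬ q ∣ p ^ j := fun j hd =>
      hpq ((Nat.prime_dvd_prime_iff_eq hq hp).mp (hq.dvd_of_dvd_pow hd)).symm
    have hnp : ¬ q ∣ p := fun hd => hnd 1 (by rwa [pow_one])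
    rw [hoff _ (hnd _), hoff _ hnp, hoff _ (hnd _), hoff _ (hnd _)]
    exact hg.qCoeff_prime_pow_of_not_dvd p r hp fun hd => hpMq (hd.mul_right q)
  · intro p r hp hpMq
    rcases (Nat.Prime.dvd_mul hp).mp hpMq with hpM | hpq
    · have hne : p ≠ q := fun e => hqM (e ▸ hpM)
      have hnd : ∀ j, ¬ q ∣ p ^ j := fun j hd =>
        hne ((Nat.prime_dvd_prime_iff_eq hq hp).mp (hq.dvd_of_dvd_pow hd)).symm
      have hnp : ¬ q ∣ p := fun hd => hnd 1 (by rwa [pow_one])
      rw [hoff _ (hnd _), hoff _ hnp, hoff _ (hnd _)]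
      exact hg.qCoeff_prime_pow_of_dvd p r hp hpM
    · obtain rfl : p = q := (Nat.prime_dvd_prime_iff_eq hp hq).mp hpq
      have hdiv : ∀ j, p ^ (j + 1) / p = p ^ j := fun j => by
        rw [pow_succ, Nat.mul_div_left _ hp.pos]
      rw [hb, hb, hb, if_pos (dvd_pow_self p (by omega)), if_pos dvd_rfl,
        if_pos (dvd_pow_self p (by omega)), hdiv, hdiv, Nat.div_self hp.pos,
        show a 1 = 1 from hg.qCoeff_one,
        show a (p ^ (r + 2)) = a p * a (p ^ (r + 1)) - p * a (p ^ r) from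
          hg.qCoeff_prime_pow_of_not_dvd p r hp hqM]
      linear_combination (-a (p ^ r)) * hβ

omit [NeZero M] in
/-- Iterated stabilisation. -/
theorem exists_raise_dvd {M R : ℕ} (hMR : M ∣ R) (hR : Squarefree R)
    {g : CuspForm (Gamma0 M) 2} (hg : g.IsNormalizedEigenform) :
    ∃ h : CuspForm (Gamma0 R) 2, h.IsNormalizedEigenform ∧
      ∀ ℓ : ℕ, ℓ.Prime → ¬ ℓ ∣ R → qCoeff h ℓ = qCoeff g ℓ := by
  obtain ⟨d, rfl⟩ := hMR
  induction d using induction_on_primes generalizing M with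
  | zero => simp at hR
  | one =>
    rw [mul_one]
    exact ⟨g, hg, fun _ _ _ => rfl⟩
  | prime_mul p d hp ih =>
    have hM : NeZero M := ⟨fun h0 => by rw [h0, zero_mul] at hR; exact not_squarefree_zero hR⟩
    have hpM : ¬ p ∣ M := fun hd => hp.not_isUnit (hR p ((mul_dvd_mul hd (dvd_mul_right p d))))
    obtain ⟨g', hg', hag⟩ := exists_raise hg hp hpM
    obtain ⟨h, hh, hagh⟩ := ih (M := M * p) (g := g') hg' (by rwa [mul_assoc])
    rw [← mul_assoc]
    refine ⟨h, hh, fun ℓ hℓ hℓR => ?_⟩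
    rw [hagh ℓ hℓ hℓR, hag ℓ hℓ fun e => hℓR (e ▸ (dvd_mul_left p M).mul_right d)]

end FLTAgent.Oldform
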