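import Fermat.Agent.Quick.CuspCoeff
import Fermat.Prelude.Def_ModularForm_HeckeOperator
import Mathlib.NumberTheory.ModularForms.Basic

/-!
# The two degeneracy maps `f(τ) ↦ f(τ)` and `f(τ) ↦ f(qτ)` from level `M` to level `Mq`
-/

set_option autoImplicit false

noncomputable section

open UpperHalfPlane CongruenceSubgroup ModularFormClass Matrix Matrix.SpecialLinearGroup
open ConjAct Pointwise
open scoped ModularForm MatrixGroups

namespace FLTAgent.Oldform

variable {k : ℤ}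

/-- A cusp form is a cusp form on every smaller group. -/
def restrictForm {Γ Γ' : Subgroup (GL (Fin 2) ℝ)} (h : Γ' ≤ Γ) (f : CuspForm Γ k) :
    CuspForm Γ' k where
  toFun := f
  slash_action_eq' γ hγ := f.slash_action_eq' γ (h hγ)
  holo' := f.holo'
  zero_at_cusps' hc := f.zero_at_cusps' (hc.mono h)

@[simp] theorem coe_restrictForm {Γ Γ' : Subgroup (GL (Fin 2) ℝ)} (h : Γ' ≤ Γ) (f : CuspForm Γ k) :
    ⇑(restrictForm h f) = ⇑f := rfl

variable {M M' q : ℕ}

theorem gamma0_map_le (h : M ∣ M') :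
    (Gamma0 M').map (mapGL ℝ) ≤ (Gamma0 M).map (mapGL ℝ) := by
  refine Subgroup.map_mono fun γ hγ => ?_
  rw [Gamma0_mem, ZMod.intCast_zmod_eq_zero_iff_dvd] at hγ ⊢
  exact (Int.natCast_dvd_natCast.mpr h).trans hγ

theorem gamma0_map_le_conj (hq : q ≠ 0) (h : M * q ∣ M') :
    (Gamma0 M').map (mapGL ℝ) ≤
      toConjAct (ModularForm.heckeDiagMatrix q)⁻¹ • (Gamma0 M).map (mapGL ℝ) := by
  rintro _ ⟨γ, hγ, rfl⟩
  rw [SetLike.mem_coe, Gamma0_mem, ZMod.intCast_zmod_eq_zero_iff_dvd] at hγ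
  obtain ⟨c, hc⟩ : ((M * q : ℕ) : ℤ) ∣ γ 1 0 := (Int.natCast_dvd_natCast.mpr h).trans hγ
  rw [Subgroup.mem_pointwise_smul_iff_inv_smul_mem, ← toConjAct_inv, inv_inv, toConjAct_smul]
  have hdet : γ 0 0 * γ 1 1 - γ 0 1 * γ 1 0 = 1 := by
    rw [← Matrix.det_fin_two]; exact γ.2
  let δ : SL(2, ℤ) := ⟨!![γ 0 0, γ 0 1 * q; (M : ℤ) * c, γ 1 1], by
    rw [Matrix.det_fin_two_of]; push_cast at hc; linear_combination hdet + γ 0 1 * hc⟩
  refine ⟨δ, ?_, ?_⟩
  · rw [SetLike.mem_coe, Gamma0_mem, ZMod.intCast_zmod_eq_zero_iff_dvd]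
    exact ⟨c, rfl⟩
  · rw [eq_mul_inv_iff_mul_eq]
    refine Matrix.GeneralLinearGroup.ext fun i j => ?_
    have hc' : (γ 1 0 : ℝ) = (M : ℝ) * q * c := by rw [hc]; push_cast; ring
    fin_cases i <;> fin_cases j <;>
      simp [δ, Matrix.mul_apply, Fin.sum_univ_two, ModularForm.val_heckeDiagMatrix hq, hc'] <;> ring

/-- `f(τ) ↦ f(τ)` at a higher level. -/
def incl (h : M ∣ M') (f : CuspForm (Gamma0 M) k) : CuspForm (Gamma0 M') k :=
  restrictForm (gamma0_map_le h) f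

/-- `f ↦ f ∣[k] diag(q, 1)`, that is `q ^ (k - 1) f(qτ)`. -/
def degMap (hq : q ≠ 0) (h : M * q ∣ M') (f : CuspForm (Gamma0 M) k) : CuspForm (Gamma0 M') k :=
  restrictForm (gamma0_map_le_conj hq h) (CuspForm.translate f (ModularForm.heckeDiagMatrix q))

theorem qCoeff_incl (h : M ∣ M') (f : CuspForm (Gamma0 M) k) (n : ℕ) :
    qCoeff (incl h f) n = qCoeff f n := rfl

theorem qCoeff_degMap [NeZero M] [NeZero M'] (hq : q ≠ 0) (h : M * q ∣ M')
    (f : CuspForm (Gamma0 M) k) (n : ℕ) :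
    qCoeff (degMap hq h f) n = if q ∣ n then (q : ℂ) ^ (k - 1) * qCoeff f (n / q) else 0 := by
  refine (ModularFormClass.qExpansion_coeff_unique (f := degMap hq h f) one_pos
    (FLTAgent.Quick.one_mem_strictPeriods M') (c := fun n => if q ∣ n then
      (q : ℂ) ^ (k - 1) * qCoeff f (n / q) else 0) (fun τ => ?_) n).symm
  have : Fact (IsCusp OnePoint.infty ((Gamma0 M).map (mapGL ℝ))) :=
    ⟨(Subgroup.IsArithmetic.isCusp_iff_isCusp_SL2Z _).mpr
      (isCusp_SL2Z_iff'.mpr ⟨1, by simp⟩)⟩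
  have hs := (ModularForm.hasSum_qExpansion (f := f) one_pos
    (FLTAgent.Quick.one_mem_strictPeriods M) (ModularForm.heckeDiagMatrix q • τ)).mul_left
      ((q : ℂ) ^ (k - 1))
  have hval : degMap hq h f τ =
      (q : ℂ) ^ (k - 1) * f (ModularForm.heckeDiagMatrix q • τ) := by
    show (⇑f ∣[k] ModularForm.heckeDiagMatrix q) τ = _
    rw [ModularForm.slash_heckeDiagMatrix_apply k hq]
  rw [← hval] at hs
  refine (Function.Injective.hasSum_iff (g := fun m => m * q)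
    (mul_left_injective₀ hq) fun m hm => ?_).mp ?_
  · have hm' : ¬ q ∣ m := fun hd => hm ⟨m / q, Nat.div_mul_cancel hd⟩
    simp only [if_neg hm', zero_smul]
  · refine hs.congr_fun fun m => ?_
    simp only [Function.comp_apply, dvd_mul_left, if_true, Nat.mul_div_left _ (Nat.pos_of_ne_zero hq),
      smul_eq_mul, qCoeff]
    rw [mul_assoc]
    congr 2
    simp only [Function.Periodic.qParam, ModularForm.coe_heckeDiagMatrix_smul hq,
      ← Complex.exp_nat_mul]
    congr 1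
    push_cast
    ring

end FLTAgent.Oldform
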